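import Fermat.Agent.Lowering.P8.Residual
import Fermat.Agent.CuspForms.SmallLevel
import Fermat.Prelude.Def_FreyPackage_IsConductorLevel

/-!
# Level lowering at a prime different from `p`, from the packages

At a minimal level the patching gives a system of eigenvalues of characteristic zero unramified at
the primes of `T`; Mazur's principle puts it, hence its reduction, at a lower level.
-/

set_option autoImplicit false
set_option linter.style.haveILetI false
set_option synthInstance.maxHeartbeats 400000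
set_option maxHeartbeats 1000000

noncomputable section

namespace FLTAgent.Lowering

open IsLocalRing

local notation "LL" => AlgebraicClosure ℚ
local notation "GG" => (AlgebraicClosure ℚ ≃ₐ[ℚ] AlgebraicClosure ℚ)

/-- The geometric input at all auxiliary levels. -/
def TargetGeometry : Prop :=
  ∀ (p : ℕ) [Fact p.Prime] (O : Type) [CommRing O] [IsDomain O] [IsDiscreteValuationRing O]
    [Algebra ℤ_[p] O] [Module.Finite ℤ_[p] O] [CharZero O]
    [IsAdicComplete (maximalIdeal O) O] (S : Setup p O) (X : Aux S), Geometry X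

/-- Removal of `p` from the level. -/
def TargetAtP : Prop :=
  ∀ (P : FreyPackage) {N : ℕ}, P.IsConductorLevel N → P.p ∣ N →
    WeierstrassCurve.Affine.Point.GaloisRepIsIrreducible (K := LL) ℚ P.freyCurve P.p →
    P.ModularRepOfLevel N → ∃ M : ℕ, M ∣ N ∧ ¬ P.p ∣ M ∧ P.ModularRepOfLevel M

namespace P8

/-- The point of characteristic zero contradicts minimality. -/
theorem seen_lower {p : ℕ} [Fact p.Prime] {O : Type} [CommRing O] [IsDomain O]
    [IsDiscreteValuationRing O] [Algebra ℤ_[p] O] [Module.Finite ℤ_[p] O] [CharZero O]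
    (hold : P7.TargetUnramifiedOld) (R : P6.Residual p O) (hp5 : 5 ≤ p) (out : Output R.S)
    (pt : P6.Point R.S out.base) {t : ℕ} (ht : t ∈ R.S.T) (ht5 : 5 ≤ t) :
    P7.Seen (R.S.M0 / t) R.S.bad (fun σ => trGL (R.S.rb σ)) := by
  classical
  obtain ⟨htp, htM, hpt⟩ := R.S.T_prime t ht
  have htne : t ≠ p := by
    rintro rfl
    exact R.S.M0_not_dvd htM
  have htsq : ¬ t ^ 2 ∣ R.S.M0 := fun h =>
    Nat.squarefree_iff_prime_squarefree.1 R.S.M0_squarefree t htp (by rwa [← pow_two])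
  -- the residue map is local
  set base := out.base
  letI := pt.field
  letI := pt.algebra
  have hredsurj : Function.Surjective base.red := fun y => by
    obtain ⟨a, rfl⟩ := residue_surjective y
    exact ⟨algebraMap O base.R a, base.red.commutes a⟩
  have hredker : RingHom.ker base.red = maximalIdeal base.R :=
    eq_maximalIdeal (RingHom.ker_isMaximal_of_surjective base.red hredsurj)
  -- the ring of the point
  let A : Subalgebra O pt.Ω := pt.f.range
  let fA : base.R →+* A := pt.f.rangeRestrict.toRingHom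
  have hfA : Function.Surjective fA := pt.f.rangeRestrict_surjective
  haveI : IsLocalRing A := IsLocalRing.of_surjective' fA hfA
  haveI : CharZero pt.Ω := charZero_of_injective_ringHom pt.injective
  haveI : CharZero A := ⟨fun a b h => by exact_mod_cast congrArg Subtype.val h⟩
  letI : Algebra ℤ_[p] A := ((algebraMap O A).comp (algebraMap ℤ_[p] O)).toAlgebra
  haveI : IsScalarTower ℤ_[p] O A := IsScalarTower.of_algebraMap_eq fun _ => rfl
  haveI := base.finite_R
  haveI : Module.Finite O A :=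
    Module.Finite.of_surjective pt.f.rangeRestrict.toLinearMap pt.f.rangeRestrict_surjective
  haveI : Module.Finite ℤ_[p] A := Module.Finite.trans O A
  have hker : RingHom.ker fA ≤ RingHom.ker base.red := fun x hx => by
    rw [hredker, mem_maximalIdeal]
    intro hu
    have h0 : IsUnit (fA x) := hu.map fA
    rw [RingHom.mem_ker.1 hx] at h0
    exact not_isUnit_zero h0
  let redA : A →+* ResidueField O :=
    fA.liftOfRightInverse (Function.surjInv hfA) (Function.rightInverse_surjInv hfA)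
      ⟨base.red.toRingHom, hker⟩
  have hredA : ∀ x, redA (fA x) = base.red x := fun x =>
    RingHom.liftOfRightInverse_comp_apply _ _ _ _ x
  let r : GG →* GL (Fin 2) A := (Matrix.GeneralLinearGroup.map fA).comp base.ρ
  have hentry : ∀ σ i j, (r σ : Matrix (Fin 2) (Fin 2) A) i j =
      fA ((base.ρ σ : Matrix (Fin 2) (Fin 2) base.R) i j) := fun σ i j => rfl
  have htr : ∀ σ, trGL (r σ) = fA (trGL (base.ρ σ)) := fun σ =>
    (AddMonoidHom.map_trace fA.toAddMonoidHom _).symm
  have hdet : ∀ σ, detGL (r σ) = fA (detGL (base.ρ σ)) := fun σ => (fA.map_det _).symm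
  have hspan : ∀ (n : ℕ) (x : base.R), x ∈ Ideal.span {(p : base.R) ^ n} →
      fA x ∈ Ideal.span {(p : A) ^ n} := fun n x hx => by
    obtain ⟨y, rfl⟩ := Ideal.mem_span_singleton.1 hx
    exact Ideal.mem_span_singleton.2 ⟨fA y, by rw [map_mul, map_pow, map_natCast]⟩
  -- the system
  obtain ⟨fH, hfH⟩ := out.base_forms
  let K : base.R →+* Module.End (Aux.empty R.S).Coef (base.M false) := (base.act false).toRingHom
  have hmem : ∀ x, fH x ∈ K.range := by
    rintro ⟨x, hx⟩
    induction hx using Algebra.adjoin_induction with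
    | mem x hx =>
      rcases hx with ⟨l, hl, hlM, hlb, rfl⟩ | ⟨q, hqM, hq, hqb, rfl⟩
      · obtain ⟨V, hV⟩ := Frobenius.exists_liesOverPrime l hl
        obtain ⟨σ, hσ⟩ := Frobenius.exists_isFrobeniusAt V l hl hV
        exact ⟨_, (hfH l hl hlM hlb V hV σ hσ).symm⟩
      · exact absurd (R.S.level_mem q hq hqM) hqb
    | algebraMap c =>
      refine ⟨(c : base.R), ?_⟩
      have e : (⟨algebraMap ℤ _ c, Subalgebra.algebraMap_mem _ c⟩ :
          CuspForm.heckeAlgebra R.S.M0 2 (↑R.S.bad : Set ℕ)) =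
          (c : CuspForm.heckeAlgebra R.S.M0 2 (↑R.S.bad : Set ℕ)) := Subtype.ext (by simp)
      exact ((congrArg fH e).trans ((map_intCast fH c).trans (map_intCast K c).symm)).symm
    | add x y hx hy ih ih' => exact (map_add fH ⟨x, hx⟩ ⟨y, hy⟩).symm ▸ add_mem ih ih'
    | mul x y hx hy ih ih' => exact (map_mul fH ⟨x, hx⟩ ⟨y, hy⟩).symm ▸ mul_mem ih ih'
  let ψ : K.range →+* A :=
    K.rangeRestrict.liftOfRightInverse (Function.surjInv K.rangeRestrict_surjective)
      (Function.rightInverse_surjInv _) ⟨fA, fun x hx => RingHom.mem_ker.2 (Subtype.ext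
        (pt.factors x (congrArg Subtype.val (RingHom.mem_ker.1 hx))))⟩
  have hψ : ∀ x, ψ (K.rangeRestrict x) = fA x := fun x =>
    RingHom.liftOfRightInverse_comp_apply _ _ _ _ x
  have hseen : P7.Seen R.S.M0 R.S.bad (fun σ => trGL (r σ)) := by
    refine ⟨inferInstance, ψ.comp (fH.codRestrict K.range hmem), fun l hl hlM hlb V hV σ hσ => ?_⟩
    show _ = trGL (r σ)
    rw [RingHom.comp_apply, htr, ← hψ]
    exact congrArg ψ (Subtype.ext (hfH l hl hlM hlb V hV σ hσ))
  have hlevel : ∀ l : ℕ, (Aux.empty R.S).level = R.S.M0 := fun _ => by simp [Aux.level, Aux.empty]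
  obtain ⟨_, θ, hθ⟩ := hold p R.S.M0 t R.S.bad hp5 htp ht5 htne htM htsq R.S.p_mem R.S.level_mem A r
    (fun n => by
      obtain ⟨L, hL, h⟩ := base.continuous n
      refine ⟨L, hL, fun σ hσ i j => ?_⟩
      have := hspan n _ (h σ hσ i j)
      rw [map_sub, ← hentry] at this
      convert this using 2
      by_cases hij : i = j <;> simp [hij, Matrix.one_apply])
    (fun n σ c hc => by
      have := hspan n _ (base.det_cyclotomic n σ c hc)
      rwa [map_sub, map_natCast, ← hdet] at this)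
    (fun l hl hlb V hV σ hσ => by
      rw [MonoidHom.comp_apply, base.unramified l hl (fun h => hlb (h ▸ R.S.p_mem))
        (fun h => hlb (R.S.level_mem l hl (hlevel l ▸ h))) V hV σ hσ, map_one])
    (fun V hV σ hσ => Units.ext (Matrix.ext fun i j => Subtype.ext (by
      rw [hentry]
      refine (pt.unramified t ht V hV σ hσ i j).trans ?_
      by_cases hij : i = j <;> simp [hij, Matrix.one_apply])))
    (by
      obtain ⟨g, h, hgh⟩ := R.S.rb_big
      refine ⟨g, h, ?_⟩
      rw [htr, ← map_ofNat fA 2, ← map_sub]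
      refine IsUnit.map fA (by_contra fun hu => hgh ?_)
      have h1 : base.red (trGL (base.ρ (g * h * g⁻¹ * h⁻¹)) - 2) = 0 := by
        rw [← RingHom.mem_ker, hredker, mem_maximalIdeal]
        exact hu
      rwa [map_sub, base.residual, map_ofNat, sub_eq_zero] at h1)
    hseen
  refine ⟨inferInstance, redA.comp θ, fun l hl hlM hlb V hV σ hσ => ?_⟩
  rw [RingHom.comp_apply, hθ l hl hlM hlb V hV σ hσ]
  show redA (trGL (r σ)) = _
  rw [htr, hredA, base.residual]

end P8

/-- Level lowering at an odd prime other than `p`. -/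
theorem level_lowering (hgeo : TargetGeometry) (hmodules : TargetModules) (hpoint : P6.TargetPoint)
    (hprin : P7.TargetPrinciple) (hold : P7.TargetUnramifiedOld) (hatp : TargetAtP)
    (P : FreyPackage) {N q : ℕ} (hcond : P.IsConductorLevel N) (hq : q.Prime)
    (hirr : WeierstrassCurve.Affine.Point.GaloisRepIsIrreducible (K := LL) ℚ P.freyCurve P.p)
    (hmod : P.ModularRepOfLevel N) (hunr : P.GaloisRepUnramifiedAt q) :
    ∃ M : ℕ, M ∣ N ∧ ¬ q ∣ M ∧ P.ModularRepOfLevel M := by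
  classical
  haveI : Fact P.p.Prime := ⟨P.pp⟩
  obtain ⟨M₀, hM₀N, hpM₀, hM₀mod⟩ : ∃ M₀, M₀ ∣ N ∧ ¬ P.p ∣ M₀ ∧ P.ModularRepOfLevel M₀ := by
    by_cases hpN : P.p ∣ N
    · exact hatp P hcond hpN hirr hmod
    · exact ⟨N, dvd_rfl, hpN, hmod⟩
  have hex : ∃ M, M ∣ M₀ ∧ P.ModularRepOfLevel M := ⟨M₀, dvd_rfl, hM₀mod⟩
  set M := Nat.find hex
  obtain ⟨hMM₀, hMmod⟩ := Nat.find_spec hex
  have hMN : M ∣ N := hMM₀.trans hM₀N
  refine ⟨M, hMN, fun hqM => ?_, hMmod⟩
  haveI : NeZero M := ⟨fun h => hcond.pos.ne' (Nat.eq_zero_of_zero_dvd (h ▸ hMN))⟩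
  have hsq : Squarefree M := hcond.squarefree.squarefree_of_dvd hMN
  have hpM : ¬ P.p ∣ M := fun h => hpM₀ (h.trans hMM₀)
  obtain ⟨f, W, 𝔪, hf, hW, h𝔪, hp𝔪, hcong⟩ := hMmod
  obtain ⟨F⟩ := P8.nonempty_freyRes hirr
  obtain ⟨hpb, -, -, hMb, hΔb, -⟩ :=
    P8.mem_badSet (P := P) (MazurPrinciple.discr_ne_zero hW) M
  have hseen := P8.seen_of_modular F hW hMb hΔb hpb hf h𝔪 hp𝔪 hcong
  have hmin : ∀ t : ℕ, t.Prime → t ∣ M → ¬ P7.Seen (M / t) (P8.badSet P W M) F.tr := by
    intro t ht htM hs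
    have hdvd : M / t ∣ M := Nat.div_dvd_of_dvd htM
    haveI : NeZero (M / t) := hs.1
    exact Nat.find_min hex (Nat.div_lt_self (Nat.pos_of_ne_zero (NeZero.ne M)) ht.one_lt)
      ⟨hdvd.trans hMM₀, (P8.exists_lift F hW hΔb hpb
        (fun l hl h => hMb l hl (h.trans hdvd)) hs).1⟩
  have hunr' : ∀ V : ValuationSubring LL, V.LiesOverPrime q →
      ∀ σ ∈ V.inertiaSubgroupIn ℚ, F.r σ = 1 := fun V hV σ hσ =>
    (F.eq_one σ).2 fun x => hunr V hV σ hσ x
  obtain ⟨hq5, O, _, _, _, _, _, _, _, R, hRM, hRbad, hqT, htr⟩ :=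
    P8.exists_residual F hprin hW hsq hpM hseen hmin hq hqM hunr'
  obtain ⟨out⟩ := hmodules P.p O R.S (hgeo P.p O R.S _)
  obtain ⟨pt⟩ := hpoint P.p O R (fun X => hgeo P.p O R.S X) out
  refine hmin q hq hqM ?_
  have h := P8.seen_lower hold R P.hp5 out pt hqT hq5
  rw [hRM, hRbad] at h
  obtain ⟨hne, θ, hθ⟩ := h
  refine ⟨hne, R.e.symm.toRingHom.comp θ, fun l hl hlM hlb V hV σ hσ => ?_⟩
  rw [RingHom.comp_apply, hθ l hl hlM hlb V hV σ hσ]
  show R.e.symm (trGL (R.S.rb σ)) = F.tr σ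
  rw [htr]
  exact R.e.symm_apply_apply _

/-- A Frey curve residually modular of a conductor level gives a form on `Γ₀(2)`, given the two
level lowering statements. -/
theorem exists_form_two (hatp : TargetAtP)
    (hlow : ∀ (P : FreyPackage) {N q : ℕ}, P.IsConductorLevel N → q.Prime → q ≠ 2 → q ≠ P.p →
      q ∣ N → WeierstrassCurve.Affine.Point.GaloisRepIsIrreducible (K := LL) ℚ P.freyCurve P.p →
      P.ModularRepOfLevel N → P.GaloisRepUnramifiedAt q →
      ∃ M : ℕ, M ∣ N ∧ ¬ q ∣ M ∧ P.ModularRepOfLevel M)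
    (P : FreyPackage) {N : ℕ} (hcond : P.IsConductorLevel N)
    (hirr : WeierstrassCurve.Affine.Point.GaloisRepIsIrreducible (K := LL) ℚ P.freyCurve P.p)
    (hmod : P.ModularRepOfLevel N) :
    ∃ f : CuspForm (CongruenceSubgroup.Gamma0 2) 2, f ≠ 0 := by
  classical
  have hex : ∃ M, M ∣ N ∧ P.ModularRepOfLevel M := ⟨N, dvd_rfl, hmod⟩
  obtain ⟨M, ⟨hMN, hM⟩, hmin⟩ : ∃ M, (M ∣ N ∧ P.ModularRepOfLevel M) ∧
      ∀ m < M, ¬ (m ∣ N ∧ P.ModularRepOfLevel m) :=
    ⟨_, Nat.find_spec hex, fun m => Nat.find_min hex⟩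
  have hM0 : 0 < M := Nat.pos_of_dvd_of_pos hMN hcond.pos
  have hcM : P.IsConductorLevel M := hcond.of_dvd hMN hM0
  have hsmall : ∀ r : ℕ, r ∣ M → ¬ (∃ M', M' ∣ M ∧ ¬ r ∣ M' ∧ P.ModularRepOfLevel M') := by
    rintro r hr ⟨M', hd, hnd, h⟩
    rcases (Nat.le_of_dvd hM0 hd).lt_or_eq with hlt | heq
    · exact hmin _ hlt ⟨hd.trans hMN, h⟩
    · exact hnd (heq ▸ hr)
  have h2 : ∀ q : ℕ, q.Prime → q ∣ M → q = 2 := fun q hq hqM => by
    by_contra hq2
    by_cases hqp : q = P.p
    · subst hqp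
      exact hsmall _ hqM (hatp P hcM hqM hirr hM)
    · refine hsmall _ hqM (hlow P hcM hq hq2 hqp hqM hirr hM fun A hA σ hσ x => ?_)
      exact Subtype.ext (LocalEC.frey_smul_eq P hq hq2 hqp hA hσ (T := x.1)
        (by rw [← natCast_zsmul]; exact (Submodule.mem_torsionBy_iff _ _).mp x.2))
  obtain ⟨f, -, -, hf, -⟩ := hM
  rcases eq_or_ne M 1 with h1 | h1
  · refine absurd ?_ hf.ne_zero
    subst h1
    exact CuspForms.eq_zero_of_index_lt_six 1 (by rw [CuspForms.index_Gamma0_one]; omega) f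
  · have hM2 : M = 2 := by
      obtain ⟨q, hq, hqM⟩ := Nat.exists_prime_and_dvd h1
      obtain rfl := h2 q hq hqM
      obtain ⟨m, hm⟩ := hqM
      rcases eq_or_ne m 1 with rfl | hm1
      · rw [hm, mul_one]
      · obtain ⟨r, hr, hrm⟩ := Nat.exists_prime_and_dvd hm1
        obtain rfl := h2 r hr (hm ▸ dvd_mul_of_dvd_right hrm 2)
        exact absurd (hm ▸ (pow_two 2).symm ▸ mul_dvd_mul_left 2 hrm)
          (hcM.sq_not_dvd Nat.prime_two)
    subst hM2
    exact ⟨f, hf.ne_zero⟩

end FLTAgent.Lowering
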