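import Fermat.Agent.EigenLattice.Extend
import Mathlib.NumberTheory.Padics.RingHoms
import Mathlib.RingTheory.Adjoin.FG
import Mathlib.RingTheory.DiscreteValuationRing.TFAE
import Mathlib.RingTheory.RootsOfUnity.PrimitiveRoots

/-!
# The coefficient ring `ℤ_p[ζ_p]`

A complete discrete valuation ring, finite over `ℤ_p`, containing a primitive `p`-th root of unity,
with residue field of `p` elements.
-/

set_option autoImplicit false
set_option linter.style.haveILetI false

noncomputable section

open IsLocalRing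

namespace FLTAgent.Lowering.P8

/-- The coefficient ring. -/
theorem exists_coeff (p : ℕ) [hp : Fact p.Prime] :
    ∃ (O : Type) (_ : CommRing O) (_ : IsDomain O) (_ : IsDiscreteValuationRing O)
      (_ : Algebra ℤ_[p] O) (_ : Module.Finite ℤ_[p] O) (_ : CharZero O)
      (_ : IsAdicComplete (maximalIdeal O) O) (ζ : O),
      IsPrimitiveRoot ζ p ∧ Nonempty (ZMod p ≃+* ResidueField O) := by
  classical
  obtain ⟨ζ, hζ⟩ := HasEnoughRootsOfUnity.exists_primitiveRoot (AlgebraicClosure ℚ_[p]) p
  let R : Subalgebra ℤ_[p] (AlgebraicClosure ℚ_[p]) := Algebra.adjoin ℤ_[p] {ζ}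
  have hint : IsIntegral ℤ_[p] ζ :=
    IsIntegral.of_pow hp.out.pos (by rw [hζ.pow_eq_one]; exact isIntegral_one)
  haveI hfin : Module.Finite ℤ_[p] R := Module.Finite.iff_fg.2 hint.fg_adjoin_singleton
  haveI : FaithfulSMul ℤ_[p] (AlgebraicClosure ℚ_[p]) :=
    FaithfulSMul.trans ℤ_[p] ℚ_[p] (AlgebraicClosure ℚ_[p])
  haveI : CharZero R := charZero_of_injective_ringHom
    (show Function.Injective (algebraMap ℤ_[p] R) from fun a b h =>
      FaithfulSMul.algebraMap_injective ℤ_[p] (AlgebraicClosure ℚ_[p]) (congrArg Subtype.val h))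
  haveI : IsLocalRing R := EigenLattice.isLocalRing_of_finite_domain ℤ_[p] R
  let z : R := ⟨ζ, Algebra.self_mem_adjoin_singleton ℤ_[p] ζ⟩
  have hz : IsPrimitiveRoot z p :=
    IsPrimitiveRoot.of_map_of_injective (f := R.val) hζ Subtype.val_injective
  haveI : Finite (ResidueField ℤ_[p]) := Finite.of_equiv _ PadicInt.residueField.symm.toEquiv
  have hpm : (p : R) ∈ maximalIdeal R := by
    intro hu
    rw [← map_natCast (algebraMap ℤ_[p] R)] at hu
    have hloc : IsLocalHom (algebraMap ℤ_[p] R) := RingHom.IsIntegral.isLocalHom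
      (Algebra.IsIntegral.isIntegral (R := ℤ_[p])) (fun a b h =>
        FaithfulSMul.algebraMap_injective ℤ_[p] (AlgebraicClosure ℚ_[p]) (congrArg Subtype.val h))
    exact PadicInt.p_nonunit (hloc.map_nonunit _ hu)
  haveI : CharP (ResidueField R) p := (CharP.charP_iff_prime_eq_zero hp.out).mpr (by
    rw [← map_natCast (residue R)]; exact (residue_eq_zero_iff _).mpr hpm)
  let I : Ideal R := Ideal.span {z - 1}
  have hmem : z - 1 ∈ maximalIdeal R := by
    rw [← residue_eq_zero_iff]
    refine pow_eq_zero_iff hp.out.ne_zero |>.1 ?_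
    rw [map_sub, map_one, sub_pow_char, one_pow, ← map_pow, hz.pow_eq_one, map_one, sub_self]
  have hgen : ∀ x : R, ∃ a : ℕ, x - (a : R) ∈ I := by
    have hpI : (p : R) ∈ I := by
      have h0 := hz.geom_sum_eq_zero hp.out.one_lt
      have h1 : ∀ i ∈ Finset.range p, z ^ i - 1 ∈ I := fun i _ =>
        Ideal.mem_span_singleton.2 (sub_one_dvd_pow_sub_one z i)
      have h2 := sum_mem h1
      rw [Finset.sum_sub_distrib, h0, Finset.sum_const, Finset.card_range, nsmul_one, zero_sub,
        neg_mem_iff] at h2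
      exact h2
    have hZ : ∀ c : ℤ_[p], ∃ a : ℕ, algebraMap ℤ_[p] R c - (a : R) ∈ I := fun c => by
      refine ⟨PadicInt.zmodRepr c, ?_⟩
      obtain ⟨d, hd⟩ := Ideal.mem_span_singleton.1
        ((PadicInt.maximalIdeal_eq_span_p (p := p)) ▸ (PadicInt.zmodRepr_spec c).2)
      rw [← map_natCast (algebraMap ℤ_[p] R), ← map_sub, hd, map_mul, map_natCast]
      exact I.mul_mem_right _ hpI
    rintro ⟨x, hx⟩
    induction hx using Algebra.adjoin_induction with
    | mem y hy =>
      obtain rfl := Set.mem_singleton_iff.1 hy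
      exact ⟨1, by rw [Nat.cast_one]; exact Ideal.mem_span_singleton_self _⟩
    | algebraMap c => exact hZ c
    | add y y' hy hy' h h' =>
      obtain ⟨a, ha⟩ := h
      obtain ⟨a', ha'⟩ := h'
      refine ⟨a + a', ?_⟩
      convert I.add_mem ha ha' using 1
      apply Subtype.ext
      push_cast
      ring
    | mul y y' hy hy' h h' =>
      obtain ⟨a, ha⟩ := h
      obtain ⟨a', ha'⟩ := h'
      refine ⟨a * a', ?_⟩
      convert I.add_mem (I.mul_mem_right ⟨y', hy'⟩ ha) (I.mul_mem_left (a : R) ha') using 1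
      apply Subtype.ext
      push_cast
      ring
  have hmax : maximalIdeal R = I := by
    refine le_antisymm (fun x hx => ?_) ((Ideal.span_singleton_le_iff_mem _).2 hmem)
    obtain ⟨a, ha⟩ := hgen x
    have h1 : residue R (a : R) = 0 := by
      rw [residue_eq_zero_iff]
      have := sub_mem hx ((Ideal.span_singleton_le_iff_mem _).2 hmem ha)
      rwa [sub_sub_cancel] at this
    rw [map_natCast, CharP.cast_eq_zero_iff (ResidueField R) p] at h1
    obtain ⟨k, rfl⟩ := h1
    have hpI : (p : R) ∈ I := by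
      have h0 := hz.geom_sum_eq_zero hp.out.one_lt
      have h2 := sum_mem (t := Finset.range p) (S := I) fun i _ =>
        Ideal.mem_span_singleton.2 (sub_one_dvd_pow_sub_one z i)
      rw [Finset.sum_sub_distrib, h0, Finset.sum_const, Finset.card_range, nsmul_one, zero_sub,
        neg_mem_iff] at h2
      exact h2
    rw [← sub_add_cancel x ((p * k : ℕ) : R)]
    exact I.add_mem ha (by rw [Nat.cast_mul]; exact I.mul_mem_right _ hpI)
  haveI : IsNoetherianRing R := IsNoetherianRing.of_finite ℤ_[p] R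
  have hnf : ¬ IsField R := fun h => by
    have h1 : z - 1 = 0 := by
      have := (isField_iff_maximalIdeal_eq.1 h) ▸ hmem
      simpa using this
    exact hz.ne_one hp.out.one_lt (sub_eq_zero.1 h1)
  haveI : IsDiscreteValuationRing R :=
    ((IsDiscreteValuationRing.TFAE R hnf).out 0 4 :
      IsDiscreteValuationRing R ↔ (maximalIdeal R).IsPrincipal).2 ⟨⟨z - 1, hmax⟩⟩
  haveI : IsAdicComplete (maximalIdeal R) R :=
    IsLocalRing.isAdicComplete_of_module_finite (𝒪 := ℤ_[p])
  refine ⟨R, inferInstance, inferInstance, inferInstance, inferInstance, hfin, inferInstance,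
    inferInstance, z, hz, ⟨RingEquiv.ofBijective (ZMod.castHom dvd_rfl (ResidueField R))
      ⟨RingHom.injective _, fun y => ?_⟩⟩⟩
  obtain ⟨x, rfl⟩ := residue_surjective y
  obtain ⟨a, ha⟩ := hgen x
  refine ⟨(a : ZMod p), ?_⟩
  rw [map_natCast, ← map_natCast (residue R), eq_comm, ← sub_eq_zero, ← map_sub, residue_eq_zero_iff]
  exact (Ideal.span_singleton_le_iff_mem _).2 hmem ha

end FLTAgent.Lowering.P8
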