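import Fermat.Agent.Lowering.P8.Two
import Fermat.Agent.MazurPrinciple.GlobalModel
import Fermat.Agent.Mazur.FreyLarge
import Fermat.Agent.Torsion.Basic
import Fermat.Agent.Frobenius.Exists

/-!
# The image of the mod `p` representation of the Frey curve is everything

Irreducibility and the unipotent element at `2` give two opposite root subgroups, and the
determinant is the cyclotomic character.
-/

set_option autoImplicit false
set_option linter.style.haveILetI false

noncomputable section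

namespace FLTAgent.Lowering.P8

open WeierstrassCurve WeierstrassCurve.Affine FLTAgent.LocalEC FLTAgent.MazurPrinciple
open scoped WeierstrassCurve.Affine

local notation "LL" => AlgebraicClosure ℚ
local notation "GG" => (AlgebraicClosure ℚ ≃ₐ[ℚ] AlgebraicClosure ℚ)

section Group

variable {K : Type*} [Field K]

/-- Two opposite root subgroups generate the matrices of determinant one. -/
theorem mem_of_det_eq_one (H : Submonoid (Matrix (Fin 2) (Fin 2) K))
    (hU : ∀ x, !![1, x; 0, 1] ∈ H) (hL : ∀ x, !![1, 0; x, 1] ∈ H)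
    (M : Matrix (Fin 2) (Fin 2) K) (hM : M.det = 1) : M ∈ H := by
  have gen : ∀ N : Matrix (Fin 2) (Fin 2) K, N.det = 1 → N 1 0 ≠ 0 → N ∈ H := by
    intro N hN h10
    rw [Matrix.det_fin_two] at hN
    have e : N = !![1, (N 0 0 - 1) / N 1 0; 0, 1] * !![1, 0; N 1 0, 1] *
        !![1, (N 1 1 - 1) / N 1 0; 0, 1] := by
      ext i j
      fin_cases i <;> fin_cases j <;>
        simp [Matrix.mul_apply, Fin.sum_univ_two] <;> field_simp <;> ring_nf at hN ⊢ <;>
        linear_combination -hN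
    rw [e]
    exact mul_mem (mul_mem (hU _) (hL _)) (hU _)
  by_cases h10 : M 1 0 = 0
  · have h00 : M 0 0 ≠ 0 := fun h => by
      rw [Matrix.det_fin_two, h10, h, zero_mul, mul_zero, sub_zero] at hM
      exact zero_ne_one hM
    have e : M = !![1, 0; -1, 1] * (!![1, 0; 1, 1] * M) := by
      rw [← Matrix.mul_assoc]
      ext i j
      fin_cases i <;> fin_cases j <;> simp [Matrix.mul_apply, Fin.sum_univ_two]
    rw [e]
    refine mul_mem (hL _) (gen _ ?_ ?_)
    · rw [Matrix.det_mul, hM, Matrix.det_fin_two_of]; ring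
    · simpa [Matrix.mul_apply, Fin.sum_univ_two, h10] using h00
  · exact gen M hM h10

/-- The powers of one nontrivial unipotent element are a root subgroup. -/
theorem root_mem {p : ℕ} [Fact p.Prime] (H : Submonoid (Matrix (Fin 2) (Fin 2) (ZMod p)))
    {c : ZMod p} (hc : c ≠ 0) :
    (!![1, c; 0, 1] ∈ H → ∀ x, !![1, x; 0, 1] ∈ H) ∧
      (!![1, 0; c, 1] ∈ H → ∀ x, !![1, 0; x, 1] ∈ H) := by
  have hU : ∀ n : ℕ, (!![1, c; 0, 1] : Matrix (Fin 2) (Fin 2) (ZMod p)) ^ n = !![1, n * c; 0, 1] := by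
    intro n
    induction n with
    | zero => rw [pow_zero, Nat.cast_zero, zero_mul]; exact Matrix.one_fin_two
    | succ n ih => rw [pow_succ, ih, Matrix.mul_fin_two]; simp; ring
  have hL : ∀ n : ℕ, (!![1, 0; c, 1] : Matrix (Fin 2) (Fin 2) (ZMod p)) ^ n = !![1, 0; n * c, 1] := by
    intro n
    induction n with
    | zero => rw [pow_zero, Nat.cast_zero, zero_mul]; exact Matrix.one_fin_two
    | succ n ih => rw [pow_succ, ih, Matrix.mul_fin_two]; simp; ring
  refine ⟨fun h x => ?_, fun h x => ?_⟩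
  · have := pow_mem h (x / c).val
    rwa [hU, ZMod.natCast_zmod_val, div_mul_cancel₀ x hc] at this
  · have := pow_mem h (x / c).val
    rwa [hL, ZMod.natCast_zmod_val, div_mul_cancel₀ x hc] at this

end Group

/-- Every unit modulo `p` is the cyclotomic exponent of some automorphism. -/
theorem exists_cyclo (p : ℕ) [Fact p.Prime] {ζ : LL} (hζ : IsPrimitiveRoot ζ p) {c : ℕ}
    (hc : ¬ p ∣ c) : ∃ σ : GG, σ ζ = ζ ^ c := by
  haveI : Algebra.IsAlgebraic ℚ LL := AlgebraicClosure.isAlgebraic ℚ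
  haveI : IsAlgClosure ℚ LL := ⟨inferInstance, inferInstance⟩
  haveI : Normal ℚ LL := IsAlgClosure.normal ℚ _
  have hp : 0 < p := (Fact.out : p.Prime).pos
  have hc' := hζ.pow_of_coprime c (((Fact.out : p.Prime).coprime_iff_not_dvd.2 hc).symm)
  have h1 : minpoly ℚ ζ = minpoly ℚ (ζ ^ c) :=
    (Polynomial.cyclotomic_eq_minpoly_rat hζ hp).symm.trans
      (Polynomial.cyclotomic_eq_minpoly_rat hc' hp)
  exact minpoly.exists_algEquiv_of_root' (Algebra.IsAlgebraic.isAlgebraic ζ)
    (by rw [h1]; exact minpoly.aeval ℚ _)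

variable (P : FreyPackage)

/-- The mod `p` representation of the Frey curve as matrices, with full image. -/
theorem exists_freyMatrix [hp : Fact P.p.Prime]
    (hirr : Point.GaloisRepIsIrreducible (K := LL) ℚ P.freyCurve P.p) :
    ∃ r : GG →* GL (Fin 2) (ZMod P.p), Function.Surjective r ∧
      (∃ L : IntermediateField ℚ LL, FiniteDimensional ℚ L ∧
        ∀ σ : GG, (∀ x ∈ L, σ x = x) → r σ = 1) ∧
      (∀ (σ : GG) (ζ : LL), ζ ^ P.p = 1 →
        σ ζ = ζ ^ (Matrix.det (r σ : Matrix (Fin 2) (Fin 2) (ZMod P.p))).val) ∧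
      (∀ σ : GG, r σ = 1 ↔ ∀ x : freyTorsion P, σ • x = x) ∧
      ∀ W : WeierstrassCurve ℤ, W.IsIntegralModelOf P.freyCurve → ∀ ℓ : ℕ, ℓ.Prime →
        W.IsGoodPrimeFor ℓ → ℓ ≠ P.p → ∀ A : ValuationSubring LL, A.LiesOverPrime ℓ →
          ∀ τ : GG, A.IsFrobeniusAt τ ℓ →
            Matrix.trace (r τ : Matrix (Fin 2) (Fin 2) (ZMod P.p)) = (W.apOfModel ℓ : ZMod P.p) := by
  classical
  haveI : NeZero P.p := ⟨P.hp0⟩
  haveI := finite_freyTorsion P
  haveI : Module.Finite (ZMod P.p) (freyTorsion P) := Module.Finite.of_finite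
  haveI : NeZero ((P.p : ℕ) : LL) := ⟨Nat.cast_ne_zero.2 P.hp0⟩
  haveI : Algebra.IsAlgebraic ℚ LL := AlgebraicClosure.isAlgebraic ℚ
  obtain ⟨A, hA⟩ := Frobenius.exists_liesOverPrime 2 Nat.prime_two
  obtain ⟨σ₀, hσ₀, x₀, hx₀⟩ := exists_ramified_two P hA
  obtain ⟨L, hLtop, hLI⟩ : ∃ L : Submodule (ZMod P.p) (freyTorsion P), L ≠ ⊤ ∧
      ∀ σ ∈ A.inertiaSubgroupIn ℚ, (∀ x ∈ L, σ • x = x) ∧ ∀ x, σ • x - x ∈ L := by
    obtain ⟨L, h1, h2, -⟩ := frey_local_two P hA
    exact ⟨L, h1, h2⟩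
  obtain ⟨hfix, hmove⟩ := hLI σ₀ hσ₀
  set v := σ₀ • x₀ - x₀
  have hv0 : v ≠ 0 := sub_ne_zero.2 hx₀
  have hvL : v ∈ L := hmove x₀
  have hfr : Module.finrank (ZMod P.p) (freyTorsion P) = 2 := finrank_freyTorsion P
  have hLspan : L = Submodule.span (ZMod P.p) {v} := by
    refine (Submodule.eq_of_le_of_finrank_le ((Submodule.span_singleton_le_iff_mem _ _).2 hvL) ?_).symm
    have := Submodule.finrank_lt hLtop
    rw [finrank_span_singleton hv0]
    exact Nat.le_of_lt_succ (lt_of_lt_of_eq this hfr)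
  obtain ⟨τ, hτ⟩ : ∃ τ : GG, τ • v ∉ L := by
    by_contra hcon
    push Not at hcon
    rcases hirr.2 L (fun σ x hx => by
        rw [hLspan, Submodule.mem_span_singleton] at hx
        obtain ⟨a, rfl⟩ := hx
        rw [← freyRho_apply, map_smul]
        exact L.smul_mem a (hcon σ)) with h | h
    · exact hv0 ((Submodule.mem_bot _).1 (h ▸ hvL))
    · exact hLtop h
  set w := τ • v
  have hli : LinearIndependent (ZMod P.p) ![v, w] := by
    rw [LinearIndependent.pair_iff]
    intro s t hst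
    have ht : t = 0 := by
      by_contra ht
      refine hτ ?_
      have : w = (-(t⁻¹ * s)) • v := by
        rw [neg_smul, mul_smul, ← smul_neg, eq_inv_smul_iff₀ ht, eq_neg_iff_add_eq_zero, add_comm, hst]
      rw [this]; exact L.smul_mem _ hvL
    rw [ht, zero_smul, add_zero] at hst
    exact ⟨(smul_eq_zero.1 hst).resolve_right hv0, ht⟩
  let b := basisOfLinearIndependentOfCardEqFinrank hli (by rw [hfr]; rfl)
  have hb0 : b 0 = v := by simp [b, coe_basisOfLinearIndependentOfCardEqFinrank]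
  have hb1 : b 1 = w := by simp [b, coe_basisOfLinearIndependentOfCardEqFinrank]
  have key : ∀ y : freyTorsion P, y = b.repr y 0 • v + b.repr y 1 • w := fun y => by
    conv_lhs => rw [← b.sum_repr y, Fin.sum_univ_two, hb0, hb1]
  let T := LinearMap.toMatrixAlgEquiv b
  let M : GG →* Matrix (Fin 2) (Fin 2) (ZMod P.p) :=
    T.toRingEquiv.toRingHom.toMonoidHom.comp (freyRho P)
  let r : GG →* GL (Fin 2) (ZMod P.p) := M.toHomUnits
  have hrM : ∀ σ, (r σ : Matrix (Fin 2) (Fin 2) (ZMod P.p)) = M σ := fun σ => rfl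
  have hMdet : ∀ σ, (M σ).det = LinearMap.det (freyRho P σ) := fun σ =>
    LinearMap.det_toMatrix b (freyRho P σ)
  have hn : Nat.card (rootsOfUnity P.p LL) = P.p := HasEnoughRootsOfUnity.natCard_rootsOfUnity _ _
  have hdet : ∀ (σ : GG) (ζ : LL), ζ ^ P.p = 1 → σ ζ = ζ ^ ((M σ).det).val := by
    intro σ ζ hζ
    have h := FrobTrace.det_eq_cyclotomic (p := P.p) P.freyCurveInt
      (Mazur.freyInt_disc_ne_zero P) hn σ
    rw [Mazur.freyCurveInt_map P] at h
    rw [hMdet, show LinearMap.det (freyRho P σ) = _ from h]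
    have hu : IsUnit ζ := IsUnit.of_pow_eq_one hζ P.hp0
    exact modularCyclotomicCharacter.spec (L := LL) (hn := hn) (σ : LL ≃+* LL) (t := hu.unit)
      (by rw [mem_rootsOfUnity, Units.ext_iff, Units.val_pow_eq_pow_val, IsUnit.unit_spec, hζ,
        Units.val_one])
  -- the two root subgroups
  obtain ⟨c, hc⟩ : ∃ c : ZMod P.p, σ₀ • w = w + c • v := by
    have h := hmove w
    rw [hLspan, Submodule.mem_span_singleton] at h
    obtain ⟨c, hc⟩ := h
    exact ⟨c, by rw [hc, add_sub_cancel]⟩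
  have hc0 : c ≠ 0 := by
    intro h
    refine hx₀ ?_
    rw [key x₀, ← freyRho_apply, map_add, map_smul, map_smul, freyRho_apply, freyRho_apply,
      hfix v hvL, hc, h, zero_smul, add_zero]
  have hMs : M σ₀ = !![1, c; 0, 1] := by
    ext i j
    show T (freyRho P σ₀) i j = _
    rw [LinearMap.toMatrixAlgEquiv_apply]
    fin_cases j <;> fin_cases i <;> simp [freyRho_apply, hb0, hb1, hfix v hvL, hc] <;>
      simp [← hb0, ← hb1]
  set u : GG := τ * σ₀ * τ⁻¹
  have huw : u • w = w := by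
    show (τ * σ₀ * τ⁻¹) • τ • v = τ • v
    rw [mul_smul, mul_smul, inv_smul_smul, hfix v hvL]
  obtain ⟨d, hd⟩ : ∃ d : ZMod P.p, u • v = v + d • w := by
    have h := hmove (τ⁻¹ • v)
    rw [hLspan, Submodule.mem_span_singleton] at h
    obtain ⟨d, hd⟩ := h
    refine ⟨d, ?_⟩
    show (τ * σ₀ * τ⁻¹) • v = v + d • (τ • v)
    rw [mul_smul, mul_smul, eq_add_of_sub_eq hd.symm, smul_add, smul_inv_smul, add_comm,
      ← freyRho_apply P τ, ← freyRho_apply P τ, map_smul]
  have hd0 : d ≠ 0 := by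
    intro h
    rw [h, zero_smul, add_zero] at hd
    refine hτ ?_
    have h1 : σ₀ • (τ⁻¹ • v) = τ⁻¹ • v := by
      have := congrArg (τ⁻¹ • ·) hd
      simpa [u, mul_smul] using this
    obtain ⟨a, a', he⟩ : ∃ a a' : ZMod P.p, τ⁻¹ • v = a • v + a' • w := ⟨_, _, key _⟩
    rw [he, ← freyRho_apply, map_add, map_smul, map_smul, freyRho_apply, freyRho_apply,
      hfix v hvL, hc, smul_add, smul_smul, ← add_assoc, add_eq_left, smul_eq_zero,
      or_iff_left hv0, mul_eq_zero, or_iff_left hc0] at h1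
    rw [h1, zero_smul, add_zero] at he
    have h2 := congrArg (τ • ·) he
    simp only [smul_inv_smul] at h2
    rw [← freyRho_apply P τ, map_smul, freyRho_apply] at h2
    have ha : a ≠ 0 := fun h0 => hv0 (by rw [h2, h0, zero_smul])
    rw [show w = a⁻¹ • v from (eq_inv_smul_iff₀ ha).2 h2.symm]
    exact L.smul_mem _ hvL
  have hMu : M u = !![1, 0; d, 1] := by
    ext i j
    show T (freyRho P u) i j = _
    rw [LinearMap.toMatrixAlgEquiv_apply]
    fin_cases j <;> fin_cases i <;> simp [freyRho_apply, hb0, hb1, huw, hd] <;>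
      simp [← hb0, ← hb1]
  refine ⟨r, ?_, ?_, hdet, fun σ => ?_, ?_⟩
  · intro g
    set H := MonoidHom.mrange M
    have hU := (root_mem H hc0).1 ⟨σ₀, hMs⟩
    have hL := (root_mem H hd0).2 ⟨u, hMu⟩
    obtain ⟨ζ, hζ⟩ := HasEnoughRootsOfUnity.exists_primitiveRoot LL P.p
    have hgd : (g : Matrix (Fin 2) (Fin 2) (ZMod P.p)).det ≠ 0 :=
      ((Matrix.isUnit_iff_isUnit_det _).1 g.isUnit).ne_zero
    obtain ⟨σ, hσ⟩ := exists_cyclo P.p hζ
      (c := (g : Matrix (Fin 2) (Fin 2) (ZMod P.p)).det.val) (fun hd' => hgd (by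
        rw [← ZMod.natCast_zmod_val (g : Matrix (Fin 2) (Fin 2) (ZMod P.p)).det,
          (ZMod.natCast_eq_zero_iff _ _).2 hd']))
    have hds : (M σ).det = (g : Matrix (Fin 2) (Fin 2) (ZMod P.p)).det :=
      ZMod.val_injective _ (hζ.pow_inj (ZMod.val_lt _) (ZMod.val_lt _)
        (((hdet σ ζ hζ.pow_eq_one).symm).trans hσ))
    obtain ⟨σ', hσ'⟩ := mem_of_det_eq_one H hU hL
      (M σ⁻¹ * (g : Matrix (Fin 2) (Fin 2) (ZMod P.p))) (by
        rw [Matrix.det_mul, ← hds, ← Matrix.det_mul, ← map_mul, inv_mul_cancel, map_one,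
          Matrix.det_one])
    refine ⟨σ * σ', Units.ext ?_⟩
    rw [hrM, map_mul, hσ', ← Matrix.mul_assoc, ← map_mul, mul_inv_cancel, map_one, Matrix.one_mul]
  · haveI : WeierstrassCurve.IsElliptic P.freyCurve := Reducible.isElliptic_freyCurve P
    obtain ⟨F, hF, hfixF⟩ := Torsion.exists_finite_level_torsionBy (S := ℚ) (W := P.freyCurve)
      (K := LL) (n := P.p)
    refine ⟨F, hF, fun σ hσ => Units.ext ?_⟩
    show T (freyRho P σ) = 1
    rw [show freyRho P σ = 1 from LinearMap.ext fun x => hfixF σ hσ x, map_one]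
  · rw [Units.ext_iff, hrM, Units.val_one]
    show T (freyRho P σ) = 1 ↔ _
    rw [map_eq_one_iff T T.injective, LinearMap.ext_iff]
    rfl
  · intro W hW ℓ hℓ hgood hne A' hA' τ' hτ'
    rw [hrM, ← (freyRho_frobenius hW hℓ hgood hne hA' hτ').1]
    exact (LinearMap.trace_eq_matrix_trace (ZMod P.p) b (freyRho P τ')).symm

end FLTAgent.Lowering.P8
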