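import Fermat.Agent.Lowering.P8.Image
import Fermat.Agent.Lowering.P7.Interface
import Fermat.Agent.EigenReps.Residual
import Fermat.Agent.Frobenius.Global
import Fermat.Agent.CuspForms.Lifting
import Fermat.Agent.CuspForms.IntegralStructure
import Fermat.Agent.EigenLattice.MultOne
import Fermat.Prelude.Def_FLTPrelim_ModularRep

/-!
# Residual modularity as a system of eigenvalues

`ModularRepOfLevel` is the occurrence of the Frobenius traces of the Frey curve in the Hecke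
algebra modulo `p`; by Chebotarev the finite set of avoided primes does not matter.
-/

set_option autoImplicit false
set_option linter.style.haveILetI false
set_option synthInstance.maxHeartbeats 400000
set_option maxHeartbeats 1000000

noncomputable section

namespace FLTAgent.Lowering.P8

open FLTAgent.LocalEC

local notation "LL" => AlgebraicClosure ℚ
local notation "GG" => (AlgebraicClosure ℚ ≃ₐ[ℚ] AlgebraicClosure ℚ)
local notation "ZZbar" => integralClosure ℤ ℂ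

/-- The mod `p` representation of the Frey curve, as matrices. -/
structure FreyRes (P : FreyPackage) [Fact P.p.Prime] where
  r : GG →* GL (Fin 2) (ZMod P.p)
  surjective : Function.Surjective r
  level : ∃ L : IntermediateField ℚ LL, FiniteDimensional ℚ L ∧
    ∀ σ : GG, (∀ x ∈ L, σ x = x) → r σ = 1
  det_cyclo : ∀ (σ : GG) (ζ : LL), ζ ^ P.p = 1 →
    σ ζ = ζ ^ (Matrix.det (r σ : Matrix (Fin 2) (Fin 2) (ZMod P.p))).val
  eq_one : ∀ σ : GG, r σ = 1 ↔ ∀ x : freyTorsion P, σ • x = x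
  frob : ∀ W : WeierstrassCurve ℤ, W.IsIntegralModelOf P.freyCurve → ∀ ℓ : ℕ, ℓ.Prime →
    W.IsGoodPrimeFor ℓ → ℓ ≠ P.p → ∀ A : ValuationSubring LL, A.LiesOverPrime ℓ →
      ∀ τ : GG, A.IsFrobeniusAt τ ℓ → trGL (r τ) = (W.apOfModel ℓ : ZMod P.p)

variable {P : FreyPackage} [hp : Fact P.p.Prime]

theorem nonempty_freyRes
    (hirr : WeierstrassCurve.Affine.Point.GaloisRepIsIrreducible (K := LL) ℚ P.freyCurve P.p) :
    Nonempty (FreyRes P) := by
  obtain ⟨r, h1, h2, h3, h4, h5⟩ := exists_freyMatrix P hirr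
  exact ⟨⟨r, h1, h2, h3, h4, h5⟩⟩

variable (F : FreyRes P)

/-- The traces. -/
def FreyRes.tr (σ : GG) : ZMod P.p := trGL (F.r σ)

/-- The determinant at a cyclotomic exponent. -/
theorem FreyRes.det_exponent {σ : GG} {c : ℕ} (hc : DetCyclo.CycloExponent P.p 1 σ c) :
    detGL (F.r σ) = (c : ZMod P.p) := by
  haveI : NeZero P.p := ⟨P.hp0⟩
  obtain ⟨ζ, hζ⟩ := DetCyclo.exists_primitive_root_pow P.p 1
  rw [pow_one] at hζ
  have h1 := F.det_cyclo σ ζ hζ.pow_eq_one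
  have h2 : σ ζ = ζ ^ (c % P.p) := by
    rw [hc ζ (by rw [pow_one]; exact hζ.pow_eq_one), ← pow_eq_pow_mod c hζ.pow_eq_one]
  have h3 := hζ.pow_inj (ZMod.val_lt _) (Nat.mod_lt _ P.pp.pos) (h1.symm.trans h2)
  rw [← ZMod.natCast_mod c, ← h3, ZMod.natCast_zmod_val]

/-- A nonscalar group of matrices detects the identity through traces. -/
theorem eq_one_of_trace {σ : GG} (h : ∀ g : GG, F.tr (g * σ) = F.tr g) : F.r σ = 1 := by
  set N : Matrix (Fin 2) (Fin 2) (ZMod P.p) :=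
    (F.r σ : Matrix (Fin 2) (Fin 2) (ZMod P.p)) - 1 with hN
  have hX : ∀ X : Matrix (Fin 2) (Fin 2) (ZMod P.p), X.det ≠ 0 → Matrix.trace (X * N) = 0 := by
    intro X hX
    obtain ⟨g, hg⟩ := F.surjective (Matrix.GeneralLinearGroup.mkOfDetNeZero X hX)
    have h1 := h g
    simp only [FreyRes.tr, trGL, map_mul, Units.val_mul, hg] at h1
    rw [hN, mul_sub, mul_one, Matrix.trace_sub]
    exact sub_eq_zero.2 h1
  have h2 : (2 : ZMod P.p) ≠ 0 := fun e => by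
    have e' : ((2 : ℕ) : ZMod P.p) = 0 := by exact_mod_cast e
    have := Nat.le_of_dvd two_pos ((ZMod.natCast_eq_zero_iff 2 P.p).1 e')
    have := P.hp5
    omega
  have e1 := hX 1 (by simp)
  have e2 := hX !![1, 1; 0, 1] (by simp [Matrix.det_fin_two_of])
  have e3 := hX !![1, 0; 1, 1] (by simp [Matrix.det_fin_two_of])
  have e4 := hX !![2, 0; 0, 1] (by simp [Matrix.det_fin_two_of, h2])
  simp [Matrix.trace_fin_two, Matrix.vecMul, dotProduct, Fin.sum_univ_two] at e1 e2 e3 e4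
  have hN0 : N = 0 := by
    ext i j
    fin_cases i <;> fin_cases j <;> simp
    · linear_combination e4 - e1
    · linear_combination e3 - e1
    · linear_combination e2 - e1
    · linear_combination 2 * e1 - e4
  exact Units.ext (sub_eq_zero.1 hN0)

section Occurrence

variable {W : WeierstrassCurve ℤ} (hW : W.IsIntegralModelOf P.freyCurve)

include hW in
/-- An eigenform congruent to the curve gives a system of eigenvalues. -/
theorem seen_of_modular {M : ℕ} [NeZero M] {bad : Finset ℕ}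
    (hM : ∀ l : ℕ, l.Prime → l ∣ M → l ∈ bad) (hΔ : ∀ l : ℕ, l.Prime → (l : ℤ) ∣ W.Δ → l ∈ bad)
    (hp' : P.p ∈ bad) {f : CuspForm (CongruenceSubgroup.Gamma0 M) 2}
    (hf : f.IsNormalizedEigenform) {𝔪 : Ideal ZZbar} (h𝔪 : 𝔪.IsMaximal)
    (hp𝔪 : (P.p : ZZbar) ∈ 𝔪)
    (hcong : ∀ ℓ : ℕ, ℓ.Prime → W.IsGoodPrimeFor ℓ → ¬ ℓ ∣ M → ℓ ≠ P.p →
      ∃ a : ZZbar, (a : ℂ) = ModularFormClass.qCoeff f ℓ ∧
        a - ((W.apOfModel ℓ : ℤ) : ZZbar) ∈ 𝔪) :
    P7.Seen M bad F.tr := by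
  haveI : CharP (ZZbar ⧸ 𝔪) P.p := (CharP.charP_iff_prime_eq_zero P.pp).mpr (by
    rw [← map_natCast (Ideal.Quotient.mk 𝔪)]; exact Ideal.Quotient.eq_zero_iff_mem.2 hp𝔪)
  set κ : ZMod P.p →+* ZZbar ⧸ 𝔪 := ZMod.castHom dvd_rfl _
  haveI : Nontrivial (ZZbar ⧸ 𝔪) := Ideal.Quotient.nontrivial_iff.2 h𝔪.ne_top
  set ψ : CuspForm.heckeAlgebra M 2 (↑bad : Set ℕ) →+* ZZbar ⧸ 𝔪 :=
    (Ideal.Quotient.mk 𝔪).comp (EigenReps.eigenCharInt hf _)
  have hT : ∀ (l : ℕ) (hl : l.Prime) (hlM : ¬ l ∣ M) (hlb : l ∉ (↑bad : Set ℕ)),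
      ψ (CuspForm.heckeAlgebra.T hl hlM hlb) = κ (W.apOfModel l) := by
    intro l hl hlM hlb
    obtain ⟨a, ha, hmem⟩ := hcong l hl (fun hd => hlb (hΔ l hl hd)) hlM (fun h => hlb (h ▸ hp'))
    rw [map_intCast, RingHom.comp_apply,
      show EigenReps.eigenCharInt hf _ (CuspForm.heckeAlgebra.T hl hlM hlb) = a from
        Subtype.ext ((EigenReps.coe_eigenCharInt_T hf hl hlM hlb).trans ha.symm),
      Ideal.Quotient.eq.2 hmem, map_intCast]
  have hmem : ∀ t, ψ t ∈ κ.range := by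
    rintro ⟨t, ht⟩
    induction ht using Algebra.adjoin_induction with
    | mem x hx =>
      rcases hx with ⟨l, hl, hlM, hlb, rfl⟩ | ⟨q, hqM, hq, hqb, rfl⟩
      · exact ⟨_, (hT l hl hlM hlb).symm⟩
      · exact absurd (hM q hq hqM) hqb
    | algebraMap c =>
      refine ⟨(c : ZMod P.p), ?_⟩
      have e : (⟨algebraMap ℤ _ c, Subalgebra.algebraMap_mem _ c⟩ :
          CuspForm.heckeAlgebra M 2 (↑bad : Set ℕ)) =
          (c : CuspForm.heckeAlgebra M 2 (↑bad : Set ℕ)) := Subtype.ext (by simp)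
      exact ((congrArg ψ e).trans ((map_intCast ψ c).trans (map_intCast κ c).symm)).symm
    | add x y hx hy ih ih' =>
      exact (map_add ψ ⟨x, hx⟩ ⟨y, hy⟩).symm ▸ add_mem ih ih'
    | mul x y hx hy ih ih' =>
      exact (map_mul ψ ⟨x, hx⟩ ⟨y, hy⟩).symm ▸ mul_mem ih ih'
  let e : ZMod P.p ≃+* κ.range := RingEquiv.ofBijective κ.rangeRestrict
    ⟨fun a b h => κ.injective (congrArg Subtype.val h), κ.rangeRestrict_surjective⟩
  refine ⟨inferInstance, e.symm.toRingHom.comp (ψ.codRestrict κ.range hmem),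
    fun l hl hlM hlb V hV σ hσ => e.injective (Subtype.ext ?_)⟩
  rw [RingHom.comp_apply, RingEquiv.toRingHom_eq_coe, RingEquiv.coe_toRingHom, e.apply_symm_apply]
  show ψ _ = κ (F.tr σ)
  rw [hT l hl hlM hlb, FreyRes.tr,
    F.frob W hW l hl (fun hd => hlb (hΔ l hl hd)) (fun h => hlb (h ▸ hp')) V hV σ hσ]

include hW in
/-- A system of eigenvalues gives an eigenform with the residual representation of the curve. -/
theorem exists_lift {M : ℕ} [NeZero M] {bad : Finset ℕ}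
    (hΔ : ∀ l : ℕ, l.Prime → (l : ℤ) ∣ W.Δ → l ∈ bad) (hp' : P.p ∈ bad)
    (hM : ∀ l : ℕ, l.Prime → l ∣ M → l ∈ bad) (h : P7.Seen M bad F.tr) :
    P.ModularRepOfLevel M ∧ ∀ l : ℕ, l.Prime → ¬ l ∣ M → l ≠ P.p →
      ∀ A : ValuationSubring LL, A.LiesOverPrime l → ∀ σ ∈ A.inertiaSubgroupIn ℚ, F.r σ = 1 := by
  obtain ⟨_, θ, hθ⟩ := h
  haveI := CuspForms.moduleFinite_heckeAlgebra M 2 (↑bad : Set ℕ)
  haveI := CuspForms.moduleFinite_heckeAlgebra M 2 (∅ : Set ℕ)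
  obtain ⟨χ, 𝔪, h𝔪, hp𝔪, hχ⟩ := CuspForms.exists_lift_character θ
  set inc : CuspForm.heckeAlgebra M 2 (↑bad : Set ℕ) →+* CuspForm.heckeAlgebra M 2 (∅ : Set ℕ) :=
    (Subalgebra.inclusion (CuspForm.heckeAlgebra_mono (Set.empty_subset _))).toRingHom
  obtain ⟨χH, hχH⟩ := EigenLattice.exists_extend_hom inc (((integralClosure ℤ ℂ).val.toRingHom).comp χ)
    (fun t ht => by
      rw [RingHom.mem_ker] at ht ⊢
      have : t = 0 := Subtype.ext (congrArg Subtype.val ht :)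
      rw [this, map_zero])
  obtain ⟨g, hg, hgc⟩ :=
    CuspForms.exists_eigenform_of_ringHom (CuspForms.hasIntegralStructure M 2) χH
  have hcoef : ∀ (l : ℕ) (hl : l.Prime) (hlM : ¬ l ∣ M) (hlb : l ∉ (↑bad : Set ℕ)),
      (χ (CuspForm.heckeAlgebra.T hl hlM hlb) : ℂ) = ModularFormClass.qCoeff g l := by
    intro l hl hlM hlb
    rw [hgc l hl, CuspForms.heckeGen, dif_neg hlM]
    exact (hχH (CuspForm.heckeAlgebra.T hl hlM hlb)).symm
  haveI := h𝔪
  letI : Field (ZZbar ⧸ 𝔪) := Ideal.Quotient.field 𝔪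
  haveI : CharP (ZZbar ⧸ 𝔪) P.p := (CharP.charP_iff_prime_eq_zero P.pp).mpr (by
    rw [← map_natCast (Ideal.Quotient.mk 𝔪)]; exact Ideal.Quotient.eq_zero_iff_mem.2 hp𝔪)
  set κ : ZMod P.p →+* ZZbar ⧸ 𝔪 := ZMod.castHom dvd_rfl _
  obtain ⟨rg, ⟨L₁, hL₁, hfix₁⟩, hunr, hfrob⟩ :=
    EigenReps.exists_residual hg (p := P.p) (Ideal.Quotient.mk 𝔪)
  obtain ⟨L₂, hL₂, hfix₂⟩ := F.level
  haveI := hL₁; haveI := hL₂
  set rc : GG →* Matrix (Fin 2) (Fin 2) (ZZbar ⧸ 𝔪) :=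
    κ.mapMatrix.toMonoidHom.comp ((Units.coeHom _).comp F.r) with hrc
  have hrctr : ∀ σ, (rc σ).trace = κ (F.tr σ) := fun σ => by
    show ((F.r σ : Matrix (Fin 2) (Fin 2) (ZMod P.p)).map κ).trace = _
    rw [Matrix.trace_fin_two, FreyRes.tr, trGL, Matrix.trace_fin_two, map_add]; rfl
  have hrcdet : ∀ σ, (rc σ).det = κ (detGL (F.r σ)) := fun σ => (κ.map_det _).symm
  have hchar : ∀ σ, (rg σ).charpoly = (rc σ).charpoly := by
    refine Frobenius.charpoly_eq_of_frobenius_matrix rg rc (L₁ ⊔ L₂) (fun σ hσ => ⟨hfix₁ σ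
      (fun x hx => hσ x ((le_sup_left : L₁ ≤ L₁ ⊔ L₂) hx)), ?_⟩) bad fun ℓ hℓ hℓb V hV τ hτ => ?_
    · rw [hrc, MonoidHom.comp_apply, MonoidHom.comp_apply,
        hfix₂ σ (fun x hx => hσ x ((le_sup_right : L₂ ≤ L₁ ⊔ L₂) hx))]
      simp
    · have hℓp : ℓ ≠ P.p := fun h => hℓb (h ▸ hp')
      have hℓM : ¬ ℓ ∣ M := fun h => hℓb (hM ℓ hℓ h)
      obtain ⟨a, ha, ht, hd⟩ := hfrob ℓ hℓ hℓM hℓp V hV τ hτ
      have hlb : ℓ ∉ (↑bad : Set ℕ) := hℓb
      have hgood : W.IsGoodPrimeFor ℓ := fun hdd => hℓb (hΔ ℓ hℓ hdd)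
      have ha' : a = χ (CuspForm.heckeAlgebra.T hℓ hℓM hlb) :=
        Subtype.ext (ha.trans (hcoef ℓ hℓ hℓM hlb).symm)
      have htr : Ideal.Quotient.mk 𝔪 a = κ (F.tr τ) := by
        rw [ha', FreyRes.tr, F.frob W hW ℓ hℓ hgood hℓp V hV τ hτ, map_intCast,
          ← map_intCast ((Ideal.Quotient.mk 𝔪).comp χ), RingHom.comp_apply,
          Ideal.Quotient.eq, ← map_sub]
        refine hχ _ ?_
        rw [map_sub, map_intCast, hθ ℓ hℓ hℓM hlb V hV τ hτ, FreyRes.tr,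
          F.frob W hW ℓ hℓ hgood hℓp V hV τ hτ, sub_self]
      rw [Matrix.charpoly_fin_two, Matrix.charpoly_fin_two, ht, hd, hrctr, hrcdet, htr,
        F.det_exponent (DetCyclo.cycloExponent_frobenius hℓ hℓp hV hτ 1)]
      simp
  have htrace : ∀ σ, (rg σ).trace = κ (F.tr σ) := fun σ => by
    rw [← hrctr, Matrix.trace_eq_neg_charpoly_coeff, Matrix.trace_eq_neg_charpoly_coeff, hchar]
  refine ⟨⟨g, W, 𝔪, hg, hW, h𝔪, hp𝔪, fun ℓ hℓ hgood hℓM hℓp => ?_⟩, ?_⟩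
  · obtain ⟨V, hV⟩ := Frobenius.exists_liesOverPrime ℓ hℓ
    obtain ⟨τ, hτ⟩ := Frobenius.exists_isFrobeniusAt V ℓ hℓ hV
    obtain ⟨a, ha, ht, -⟩ := hfrob ℓ hℓ hℓM hℓp V hV τ hτ
    refine ⟨a, ha, Ideal.Quotient.eq.1 ?_⟩
    rw [← ht, htrace, FreyRes.tr, F.frob W hW ℓ hℓ hgood hℓp V hV τ hτ, map_intCast, map_intCast]
  · intro l hl hlM hlp A hA σ hσ
    refine eq_one_of_trace F fun γ => κ.injective ?_
    rw [← htrace, ← htrace, map_mul, hunr l hl hlM hlp A hA σ hσ, mul_one]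

end Occurrence

end FLTAgent.Lowering.P8
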