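import Fermat.Agent.Lowering.P8.Lift
import Fermat.Agent.Lowering.P8.Coeff
import Fermat.Agent.Lowering.P6.Interface
import Fermat.Agent.Places.Basic

/-!
# The situation at a minimal level

At a minimal squarefree level, prime to `p`, every prime at which the Frey representation is
unramified is `1` modulo `p` with scalar Frobenius elements; this gives the `Residual` of the
patching.
-/

set_option autoImplicit false
set_option linter.style.haveILetI false
set_option synthInstance.maxHeartbeats 400000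
set_option maxHeartbeats 1000000

noncomputable section

namespace FLTAgent.Lowering.P8

open IsLocalRing
open scoped Pointwise

local notation "LL" => AlgebraicClosure ℚ
local notation "GG" => (AlgebraicClosure ℚ ≃ₐ[ℚ] AlgebraicClosure ℚ)

variable {P : FreyPackage} [hp : Fact P.p.Prime] (F : FreyRes P) {W : WeierstrassCurve ℤ}

/-- The avoided primes. -/
def badSet (P : FreyPackage) (W : WeierstrassCurve ℤ) (M : ℕ) : Finset ℕ :=
  {P.p, 2, 3} ∪ M.primeFactors ∪ W.Δ.natAbs.primeFactors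

omit hp in
theorem mem_badSet (hW : W.Δ ≠ 0) (M : ℕ) [NeZero M] :
    P.p ∈ badSet P W M ∧ 2 ∈ badSet P W M ∧ 3 ∈ badSet P W M ∧
      (∀ l : ℕ, l.Prime → l ∣ M → l ∈ badSet P W M) ∧
      (∀ l : ℕ, l.Prime → (l : ℤ) ∣ W.Δ → l ∈ badSet P W M) ∧
      ∀ l ∈ badSet P W M, l.Prime := by
  refine ⟨by simp [badSet], by simp [badSet], by simp [badSet], fun l hl h => ?_, fun l hl h => ?_,
    fun l hl => ?_⟩
  · exact Finset.mem_union_left _ (Finset.mem_union_right _
      (Nat.mem_primeFactors.2 ⟨hl, h, NeZero.ne M⟩))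
  · exact Finset.mem_union_right _
      (Nat.mem_primeFactors.2 ⟨hl, Int.natCast_dvd.1 h, Int.natAbs_ne_zero.2 hW⟩)
  · rw [badSet, Finset.mem_union, Finset.mem_union] at hl
    rcases hl with (hl | hl) | hl
    · simp only [Finset.mem_insert, Finset.mem_singleton] at hl
      rcases hl with rfl | rfl | rfl
      exacts [P.pp, Nat.prime_two, Nat.prime_three]
    · exact (Nat.mem_primeFactors.1 hl).1
    · exact (Nat.mem_primeFactors.1 hl).1

/-- The representation is ramified at every place over a prime where it is ramified at one. -/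
theorem ramified_all {l : ℕ} (hl : l.Prime) {V₀ : ValuationSubring LL} (hV₀ : V₀.LiesOverPrime l)
    {σ : GG} (hσ : σ ∈ V₀.inertiaSubgroupIn ℚ) (hr : F.r σ ≠ 1) {V : ValuationSubring LL}
    (hV : V.LiesOverPrime l) : ∃ τ ∈ V.inertiaSubgroupIn ℚ, F.r τ ≠ 1 := by
  obtain ⟨g, rfl⟩ := Places.exists_smul_eq hl hV₀ hV
  refine ⟨_, Places.conj_mem_inertia V₀ hσ g, fun h => hr ?_⟩
  rwa [map_mul, map_mul, map_inv, conj_eq_one_iff] at h

/-- At a minimal level, the data of the patching. -/
theorem exists_residual (hprin : P7.TargetPrinciple) (hW : W.IsIntegralModelOf P.freyCurve)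
    {M : ℕ} (hsq : Squarefree M) (hpM : ¬ P.p ∣ M)
    (hseen : P7.Seen M (badSet P W M) F.tr)
    (hmin : ∀ t : ℕ, t.Prime → t ∣ M → ¬ P7.Seen (M / t) (badSet P W M) F.tr)
    {q : ℕ} (hq : q.Prime) (hqM : q ∣ M)
    (hunr : ∀ V : ValuationSubring LL, V.LiesOverPrime q →
      ∀ σ ∈ V.inertiaSubgroupIn ℚ, F.r σ = 1) :
    5 ≤ q ∧ ∃ (O : Type) (_ : CommRing O) (_ : IsDomain O) (_ : IsDiscreteValuationRing O)
      (_ : Algebra ℤ_[P.p] O) (_ : Module.Finite ℤ_[P.p] O) (_ : CharZero O)
      (_ : IsAdicComplete (maximalIdeal O) O) (R : P6.Residual P.p O),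
      R.S.M0 = M ∧ R.S.bad = badSet P W M ∧ q ∈ R.S.T ∧
        ∀ σ, trGL (R.S.rb σ) = R.e (F.tr σ) := by
  classical
  haveI : NeZero M := ⟨hsq.ne_zero⟩
  have hΔ := MazurPrinciple.discr_ne_zero hW
  obtain ⟨hpb, h2b, h3b, hMb, hΔb, hprime⟩ := mem_badSet (P := P) hΔ M
  obtain ⟨-, hout⟩ := exists_lift F hW hΔb hpb hMb hseen
  obtain ⟨A₂, hA₂⟩ := Frobenius.exists_liesOverPrime 2 Nat.prime_two
  obtain ⟨σ₂, hσ₂, x₂, hx₂⟩ := exists_ramified_two P hA₂
  have hr2 : F.r σ₂ ≠ 1 := fun h => hx₂ ((F.eq_one σ₂).1 h x₂)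
  have hp5 := P.hp5
  have h2M : 2 ∣ M := by
    by_contra h2
    exact hr2 (hout 2 Nat.prime_two h2 (by omega) A₂ hA₂ σ₂ hσ₂)
  set bad := badSet P W M
  let D : P1.Datum P.p :=
    { p_gt := by omega
      rb := F.r
      surjective := F.surjective
      level := F.level
      det_cyclo := F.det_cyclo
      bad := bad
      bad_prime := hprime
      p_mem := hpb
      unramified := fun l hl hlb V hV σ hσ => hout l hl (fun h => hlb (hMb l hl h))
        (fun h => hlb (h ▸ hpb)) V hV σ hσ }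
  set T := M.primeFactors.filter fun t => ∀ V : ValuationSubring LL, V.LiesOverPrime t →
    ∀ σ ∈ V.inertiaSubgroupIn ℚ, F.r σ = 1 with hTdef
  have hTprop : ∀ t ∈ T, t.Prime ∧ t ∣ M ∧ P.p ∣ t - 1 ∧ 5 ≤ t ∧
      ∀ V : ValuationSubring LL, V.LiesOverPrime t → ∀ φ : GG, V.IsFrobeniusAt φ t →
        ∃ a : ZMod P.p, (F.r φ : Matrix (Fin 2) (Fin 2) (ZMod P.p)) = a • 1 := by
    intro t ht
    rw [hTdef, Finset.mem_filter, Nat.mem_primeFactors] at ht
    obtain ⟨⟨htp, htM, -⟩, htun⟩ := ht
    have ht2 : t ≠ 2 := by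
      rintro rfl
      exact hr2 (htun A₂ hA₂ σ₂ hσ₂)
    have h2t := htp.two_le
    have ht4 : t ≠ 4 := by rintro rfl; norm_num at htp
    obtain ⟨hdvd, hscal⟩ := hprin P.p D M t hsq hpM htp htM
      (by rcases eq_or_ne t 3 with h3 | h3
          · exact Or.inr ⟨h3, h2M⟩
          · exact Or.inl (by omega))
      hMb htun hseen (hmin t htp htM)
    have := Nat.le_of_dvd (by omega) hdvd
    exact ⟨htp, htM, hdvd, by omega, hscal⟩
  have hqT : q ∈ T := Finset.mem_filter.2 ⟨Nat.mem_primeFactors.2 ⟨hq, hqM, NeZero.ne M⟩, hunr⟩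
  refine ⟨(hTprop q hqT).2.2.2.1, ?_⟩
  obtain ⟨O, i1, i2, i3, i4, i5, i6, i7, ζ, hζ, ⟨e⟩⟩ := exists_coeff P.p
  have hζu : IsUnit ζ := IsUnit.of_pow_eq_one hζ.pow_eq_one P.hp0
  have hord : orderOf hζu.unit = P.p := by
    rw [← orderOf_units, IsUnit.unit_spec, ← hζ.eq_orderOf]
  have hχ : ∀ t ∈ T, ∃ χ : (ZMod t)ˣ →* Oˣ, (∀ u, χ u ^ P.p = 1) ∧ χ ≠ 1 := by
    intro t ht
    obtain ⟨htp, -, hdvd, -⟩ := hTprop t ht
    haveI : Fact t.Prime := ⟨htp⟩
    obtain ⟨g, hg⟩ := IsCyclic.exists_generator (α := (ZMod t)ˣ)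
    have hog : orderOf g = t - 1 := by
      rw [orderOf_eq_card_of_forall_mem_zpowers hg, Nat.card_eq_fintype_card, ZMod.card_units]
    refine ⟨monoidHomOfForallMemZpowers hg (g' := hζu.unit) (by rw [hord, hog]; exact hdvd),
      fun u => ?_, fun h => ?_⟩
    · obtain ⟨k, rfl⟩ := Subgroup.mem_zpowers_iff.1 (hg u)
      rw [map_zpow, monoidHomOfForallMemZpowers_apply_gen, ← zpow_natCast, ← zpow_mul, mul_comm,
        zpow_mul, zpow_natCast]
      have h1 : hζu.unit ^ P.p = 1 := hord ▸ pow_orderOf_eq_one hζu.unit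
      rw [h1, one_zpow]
    · have h1 := DFunLike.congr_fun h g
      rw [monoidHomOfForallMemZpowers_apply_gen, MonoidHom.one_apply] at h1
      rw [h1, orderOf_one] at hord
      omega
  choose χ hχ1 hχ2 using hχ
  have htrmap : ∀ σ, trGL (Matrix.GeneralLinearGroup.map e.toRingHom (F.r σ)) = e (F.tr σ) :=
    fun σ => (AddMonoidHom.map_trace e.toRingHom.toAddMonoidHom _).symm
  let S : Setup P.p O :=
    { p_gt := by omega
      M0 := M
      M0_squarefree := hsq
      M0_not_dvd := hpM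
      T := T
      T_prime := fun t ht => ⟨(hTprop t ht).1, (hTprop t ht).2.1, (hTprop t ht).2.2.1⟩
      bad := bad
      bad_prime := hprime
      p_mem := hpb
      two_mem := h2b
      three_mem := h3b
      level_mem := hMb
      rb := (Matrix.GeneralLinearGroup.map e.toRingHom).comp F.r
      rb_level := by
        obtain ⟨L, hL, hfix⟩ := F.level
        exact ⟨L, hL, fun σ hσ => by rw [MonoidHom.comp_apply, hfix σ hσ, map_one]⟩
      rb_det := fun σ c hc => by
        show Matrix.det ((F.r σ : Matrix (Fin 2) (Fin 2) (ZMod P.p)).map e) = _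
        rw [← RingEquiv.mapMatrix_apply, ← RingEquiv.map_det,
          show Matrix.det (F.r σ : Matrix (Fin 2) (Fin 2) (ZMod P.p)) = (c : ZMod P.p) from
            F.det_exponent hc, map_natCast]
      rb_unramified := fun l hl hlb V hV σ hσ => by
        rw [MonoidHom.comp_apply, D.unramified l hl hlb V hV σ hσ, map_one]
      rb_big := by
        obtain ⟨g, hg⟩ := F.surjective
          (Matrix.GeneralLinearGroup.mkOfDetNeZero !![1, 1; 0, 1] (by simp [Matrix.det_fin_two_of]))
        obtain ⟨h, hh⟩ := F.surjective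
          (Matrix.GeneralLinearGroup.mkOfDetNeZero !![1, 0; 1, 1] (by simp [Matrix.det_fin_two_of]))
        refine ⟨g, h, fun he => ?_⟩
        rw [MonoidHom.comp_apply, htrmap, ← map_ofNat e 2] at he
        have h3 := e.injective he
        simp only [FreyRes.tr, trGL, map_mul, map_inv, Units.val_mul, Matrix.coe_units_inv,
          hg, hh] at h3
        simp [Matrix.inv_def, Matrix.adjugate_fin_two, Matrix.det_fin_two_of,
          Matrix.trace_fin_two] at h3
        exact one_ne_zero (α := ZMod P.p) (by linear_combination h3)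
      modular := by
        obtain ⟨_, θ, hθ⟩ := hseen
        refine ⟨e.toRingHom.comp θ, fun l hl hlM hlb V hV σ hσ => ?_⟩
        rw [RingHom.comp_apply, hθ l hl hlM hlb V hV σ hσ]
        exact (htrmap σ).symm
      χ := χ
      χ_pow := hχ1
      χ_ne := hχ2 }
  let R : P6.Residual P.p O :=
    { S := S
      D := D
      e := e
      rb_eq := fun σ => rfl
      bad_eq := rfl
      T_nonempty := ⟨q, hqT⟩
      unramified := fun l hl hlp h V hV σ hσ => by
        rcases h with h | h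
        · exact hout l hl h hlp V hV σ hσ
        · exact (Finset.mem_filter.1 h).2 V hV σ hσ
      ramified := fun l hl hlM hlT V hV => by
        by_contra hcon
        push Not at hcon
        refine hlT (Finset.mem_filter.2 ⟨Nat.mem_primeFactors.2 ⟨hl, hlM, NeZero.ne M⟩,
          fun V₀ hV₀ σ hσ => by_contra fun hne => ?_⟩)
        obtain ⟨τ, hτ, hτne⟩ := ramified_all F hl hV₀ hσ hne hV
        exact hτne (hcon τ hτ)
      scalar := fun t ht => (hTprop t ht).2.2.2.2 }
  exact ⟨O, i1, i2, i3, i4, i5, i6, i7, R, rfl, rfl, hqT, htrmap⟩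

end FLTAgent.Lowering.P8
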