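import Fermat.Agent.LocalEC.FreyTwo
import Fermat.Agent.Mazur.Value
import Fermat.Agent.Specialization.Valuation

/-!
# The mod `p` representation of the Frey curve is ramified at `2`

A `p`-torsion point off the identity component has an abscissa whose valuation has denominator
`p`, as `v₂(b ^ p / 16)` is prime to `p`.
-/

set_option autoImplicit false
set_option linter.style.haveILetI false

noncomputable section

namespace FLTAgent.Lowering.P8

open WeierstrassCurve WeierstrassCurve.Affine IsLocalRing FLTAgent.LocalEC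
open scoped WeierstrassCurve.Affine

local notation "LL" => AlgebraicClosure ℚ

variable (P : FreyPackage) {A : ValuationSubring LL}

/-- Some `p`-torsion point is off the identity component at `2`. -/
theorem exists_not_inE0 (hA : A.LiesOverPrime 2) (hN : NodeModel A (freyBar P)) :
    ∃ T : (freyBar P).Point, P.p • T = 0 ∧ ¬InE0 hN.toIntCoeff T := by
  classical
  by_contra hcon
  push Not at hcon
  have hall : ∀ T : (freyBar P).Point, P.p • T = 0 → InE0 hN.toIntCoeff T := hcon
  have hW := hN.toIntCoeff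
  have hp2 : P.p ≠ 2 := by have := P.hp5; omega
  have hvp : A.valuation (P.p : LL) = 1 := val_natCast_eq_one hA Nat.prime_two fun h =>
    hp2 ((Nat.prime_dvd_prime_iff_eq Nat.prime_two P.pp).mp h).symm
  have hn0 : ((P.p : ℕ) : LL) ≠ 0 := Nat.cast_ne_zero.mpr P.hp0
  have hcard := FLTAgent.Torsion.card_ker_nsmul (W := freyBar P) hn0
  have : Finite {T : (freyBar P).Point // P.p • T = 0} :=
    Nat.finite_of_card_ne_zero (hcard ▸ pow_ne_zero 2 P.hp0)
  have hTf : {T : (freyBar P).Point | P.p • T = 0}.Finite := Set.finite_coe_iff.mp this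
  have hinj : Set.InjOn (red hW) hTf.toFinset := by
    intro a ha b hb he
    rw [Finset.mem_coe, Set.Finite.mem_toFinset, Set.mem_ofPred_eq] at ha hb
    refine sub_eq_zero.mp (eq_zero_of_inE1_of_nsmul hW
      (sub_inE1_of_red_eq hW (hall a ha) (hall b hb) he) hvp ?_)
    rw [nsmul_sub, ha, hb, sub_zero]
  -- the tangent slopes at the node
  obtain ⟨r, hr⟩ := IsAlgClosed.exists_root
    (Polynomial.C 1 * Polynomial.X ^ 2 + Polynomial.C 1 * Polynomial.X +
      Polynomial.C (-(freyBar P).a₂)) (by rw [Polynomial.degree_quadratic one_ne_zero]; decide)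
  simp only [Polynomial.IsRoot.def, Polynomial.eval_add, Polynomial.eval_mul, Polynomial.eval_C,
    Polynomial.eval_pow, Polynomial.eval_X, one_mul] at hr
  have hrA : r ∈ A := mem_of_sq_add_mul (one_mem A) hW.mem₂ (by linear_combination hr)
  have hrA' : -1 - r ∈ A := sub_mem (neg_mem (one_mem A)) hrA
  have hnd : IsNodal hW.redCurve (residue A ⟨r, hrA⟩) (residue A ⟨-1 - r, hrA'⟩) := by
    refine ⟨?_, ?_, ?_, ?_, ?_, ?_⟩
    · show residue A _ = _
      rw [← map_add, ← map_neg]
      refine congrArg _ (Subtype.ext ?_)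
      show (freyBar P).a₁ = -(r + (-1 - r))
      rw [freyBar_a₁]; ring
    · show residue A _ = _
      rw [← map_mul, ← map_neg]
      refine congrArg _ (Subtype.ext ?_)
      show (freyBar P).a₂ = -(r * (-1 - r))
      linear_combination -hr
    · exact (residue_eq_zero_iff_val_lt_one _).mpr (by
        show A.valuation (freyBar P).a₃ < 1
        rw [freyBar_a₃, map_zero]; exact zero_lt_one)
    · exact (residue_eq_zero_iff_val_lt_one _).mpr hN.a₄_lt
    · exact (residue_eq_zero_iff_val_lt_one _).mpr (by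
        show A.valuation (freyBar P).a₆ < 1
        rw [freyBar_a₆, map_zero]; exact zero_lt_one)
    · intro e
      have h1 := (residue_eq_iff_val_sub_lt_one _ _).mp e
      change A.valuation (r - (-1 - r)) < 1 at h1
      have h2 : (freyBar P).b₂ = (r - (-1 - r)) ^ 2 := by
        rw [WeierstrassCurve.b₂, freyBar_a₁]; linear_combination (-4 : LL) * hr
      have h3 := hN.b₂_unit
      rw [h2, map_pow] at h3
      exact (pow_lt_one₀ zero_le h1 two_ne_zero).ne h3
  have hle := hnd.card_nsmul_eq_zero_le (n := P.p) P.pp.pos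
    (S := hTf.toFinset.image (red hW)) (by
      intro Q hQ
      obtain ⟨a, ha, rfl⟩ := Finset.mem_image.mp hQ
      rw [Set.Finite.mem_toFinset, Set.mem_ofPred_eq] at ha
      have hh := map_nsmul (redHom hW) P.p ⟨a, hall a ha⟩
      rw [redHom_apply, redHom_apply, AddSubgroup.coe_nsmul] at hh
      rw [← hh, show P.p • a = 0 from ha]; rfl)
  rw [Finset.card_image_of_injOn hinj, ← Nat.card_eq_card_finite_toFinset hTf] at hle
  have h2 : P.p ^ 2 ≤ P.p := hcard ▸ hle
  nlinarith [P.hp5]

/-- The valuation of `a₄` at `2`. -/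
theorem val_a₄ (hA : A.LiesOverPrime 2) : ∃ j : ℕ,
    A.valuation (freyBar P).a₄ = A.valuation (2 : LL) ^ (((P.p * j : ℕ) : ℤ) - 4) := by
  obtain ⟨j, m, hm, hb⟩ := Nat.exists_eq_pow_mul_and_not_dvd (Int.natAbs_ne_zero.2 P.hb0) 2
    (by decide)
  have h2b : (2 : ℤ) ∣ P.b := (ZMod.intCast_zmod_eq_zero_iff_dvd P.b 2).mp P.hb2
  have h2a : ¬(2 : ℤ) ∣ P.a := fun h =>
    Int.prime_two.not_isUnit (isUnit_of_dvd_one (P.hgcdab ▸ dvd_gcd h h2b))
  have h20 : A.valuation (2 : LL) ≠ 0 := (_root_.map_ne_zero _).2 two_ne_zero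
  refine ⟨j, ?_⟩
  have hva : A.valuation (P.a : LL) = 1 := val_intCast_eq_one hA Nat.prime_two h2a
  have hvb : A.valuation (P.b : LL) = A.valuation (2 : LL) ^ j := by
    have h1 : A.valuation (P.b : LL) = A.valuation ((P.b.natAbs : ℕ) : LL) := by
      rcases Int.natAbs_eq P.b with h | h <;> conv_lhs => rw [h]
      · rw [Int.cast_natCast]
      · rw [Int.cast_neg, Valuation.map_neg, Int.cast_natCast]
    rw [h1, hb, Nat.cast_mul, Nat.cast_pow, map_mul, map_pow,
      val_natCast_eq_one hA Nat.prime_two hm, mul_one, Nat.cast_ofNat]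
  rw [freyBar_a₄, map_div₀, map_mul, Valuation.map_neg, map_pow, map_pow, hva, hvb, one_pow, one_mul,
    ← pow_mul, show (16 : LL) = 2 ^ 4 by norm_num, map_pow, zpow_sub₀ h20, mul_comm j,
    zpow_natCast, zpow_ofNat]

/-- The representation is ramified at `2`. -/
theorem exists_ramified_two (hA : A.LiesOverPrime 2) :
    ∃ σ ∈ A.inertiaSubgroupIn ℚ, ∃ x : freyTorsion P, σ • x ≠ x := by
  classical
  haveI : Fact P.p.Prime := ⟨P.pp⟩
  haveI : Fact (Nat.Prime 2) := ⟨Nat.prime_two⟩
  by_contra hcon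
  push Not at hcon
  have hp2 : P.p ≠ 2 := by have := P.hp5; omega
  have hN := frey_nodeModel_two P hA
  obtain ⟨T, hT, h0⟩ := exists_not_inE0 P hA hN
  obtain ⟨k, hk1, hk, hxk⟩ := hN.exists_xVal_pow_eq hp2 hT h0
  rcases T with _ | ⟨x, y, h⟩
  · exact h0 (inE0_zero _)
  have hfix : ∀ σ ∈ A.inertiaSubgroupIn ℚ, σ x = x := fun σ hσ => by
    obtain ⟨h', e⟩ := smul_some P σ h
    have e' := congrArg Subtype.val (hcon σ hσ ⟨_, (torsion_iff P).2 hT⟩)
    change σ • Point.some x y h = Point.some x y h at e'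
    rw [e, Point.some.injEq] at e'
    exact e'.1
  rw [xVal_some] at hxk
  have hx0 : x ≠ 0 := fun hx => by
    rw [hx, map_zero, zero_pow P.hp0] at hxk
    exact pow_ne_zero _ hN.u_pos.ne' hxk.symm
  obtain ⟨z, hz⟩ := Mazur.exists_zpow_valuation A Nat.prime_two hA hx0 hfix
  obtain ⟨j, hj⟩ := val_a₄ P hA
  rw [Nat.cast_ofNat] at hz
  rw [hz, hj, ← zpow_natCast, ← zpow_mul, ← zpow_natCast, ← zpow_mul] at hxk
  have hlt : A.valuation (2 : LL) < 1 := by
    simpa using Specialization.val_ell_lt_one (ℓ := 2) hA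
  have hpos : (0 : A.ValueGroup) < A.valuation (2 : LL) := zero_lt_iff.2 ((_root_.map_ne_zero _).2 two_ne_zero)
  have heq := zpow_right_injective₀ hpos hlt.ne hxk
  have hd : (P.p : ℤ) ∣ ((8 * k : ℕ) : ℤ) :=
    ⟨2 * k * j - z, by push_cast at heq ⊢; linear_combination heq⟩
  rcases (Nat.Prime.dvd_mul P.pp).1 (Int.natCast_dvd_natCast.1 hd) with h8 | hkd
  · exact hp2 ((Nat.prime_dvd_prime_iff_eq P.pp Nat.prime_two).1
      (P.pp.dvd_of_dvd_pow (show P.p ∣ 2 ^ 3 from h8)))
  · exact absurd (Nat.le_of_dvd hk1 hkd) (by omega)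

end FLTAgent.Lowering.P8
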